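import Fermat.Agent.LT.T6.H558.QuatSetAsm
import Fermat.Agent.LT.H129.Newton
import Fermat.Agent.LT.T6.H162.CptG
import Fermat.Agent.LT.T6.H313.QuadUnitNorm
import Fermat.Agent.LT.T6.H166.TwCent

/-!
# Row LT, tower T6, leaf T6.18i.6b `QuatSettingC385` CLOSED (registry 1424, owner helper558)

OFF-MAIN.  `quatSettingC558 : H385.QuatSettingC385`, UNCONDITIONAL, in ONE import closure:
`quatSetting_of_t6_558` + byte-identical copies of `H129/Newton.lean` (helper129,
`newtonC129`), `T6/H162/{CptGCore, CptG}.lean` (helper162, `cptGC162`),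
`T6/H313/*.lean` (helper313, `quadUnitNormC313`), `T6/H166/TwCent.lean` (helper166,
`twCentC166`).
-/

set_option autoImplicit false

namespace Fermat.Agent.LT.T6.H558

open Fermat.Agent.LT.T6

/-- **T6.18i.6b `QuatSettingC385`**, unconditional. -/
theorem quatSettingC558 : H385.QuatSettingC385 :=
  quatSetting_of_t6_558 Fermat.Agent.LT.H129.newtonC129 H162.cptGC162 H313.quadUnitNormC313
    H166.twCentC166

end Fermat.Agent.LT.T6.H558
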