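import Fermat.Agent.LT.T6.H385.DescSpec
import Fermat.Agent.LT.T6.H305.CenNormSpec

/-!
# Row LT, tower T6, leaf T6.18i.6b `QuatSettingC385` (registry 1424, owner helper558): SUB-SPEC

OFF-MAIN.  Definitions + frozen sub-leaf Props.  The PROVED top is in `QuatSetTop.lean`:

* `quatSetting_of558 : H159.NewtonC → H305.CptGC305 → QuatBddC558 → QuatSubC558 →
    QuatUnifC558 → QuatTorusC558 → H385.QuatSettingC385`

Imports: byte-identical copies of `T6/Spec.lean` (helper22, sha256 `8c5f2ae7…`),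
`H783/BadSpec.lean` (`c79abacc…`), `H385/{QuatSpec, DescSpec}.lean` (`03a0bab8…`, `ef4c48b7…`),
`H159/{NormSpec, VanishSpec}.lean`, `H288/HypSpec.lean`, `H305/CenNormSpec.lean` (`f00c68bd…`).

## Setting

`k'/k` quadratic extension of local fields (`QuadData385`), `σ = s`, `z ∈ k^×` NOT a norm,
`δ₀ = [[0, z], [1, 0]]`.  `D = {d ∈ M₂(k') : d δ₀ = δ₀ σ(d)} = {[[a, z σ(c)], [c, σ(a)]]}`,
`Nrd d = det d = N a - z N c ∈ k`, `Trd d = tr d = a + σ(a) ∈ k`.  `H = D^×` is the twisted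
centraliser of `δ₀` (`InTwCent s δ₀`), `H^c = {t ∈ H : |tr t| ≤ 1, |det t| = 1}`
(`InTwCentC s δ₀`).

## The sub-leaves (all TRUE statements; proofs sketched in the doc-comments)

* `QuatBddC558`   (S2): `H^c` is bounded.
* `QuatSubC558`   (S3): the twisted centraliser of `w δ₀` is contained in `H`.
* `QuatUnifC558`  (S4): `Nrd : H → k^×` takes a value of valuation `exp (-1)`.
* `QuatTorusC558` (S5): `Nrd` on the twisted centraliser `T` of `δ₁` with `N δ₁ ∼ γ`: it takes a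
  value of valuation `exp (-1)` if `k[γ]/k` is ramified, only values of even order otherwise.

Proved in `QuatSetTop.lean` (owner): `D` is a division algebra, `Nrd t` a unit ⇒ `Trd t`
integral (`H159.NewtonC`), all group-theoretic fields, the finiteness field (`H305.CptGC305`),
the representatives of `T \ H / H^c`.
-/

set_option autoImplicit false

open scoped Matrix

noncomputable section

namespace Fermat.Agent.LT.T6.H558

open Fermat.Agent.LT.T6 Fermat.Agent.LT.T6.H783 Fermat.Agent.LT.T6.H385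

/-- **S2 (`H^c` is bounded).**  There is `B` such that every `t ∈ D^×` with `|det t| = 1` has all
entries of absolute value `≤ exp B`.

Proof.  `t = [[a, z σ(c)], [c, σ(a)]]` (compare the entries of `t δ₀ = δ₀ σ(t)`; `σ² = 1`,
`z ≠ 0`), `det t = N a - z N c`.  ANISOTROPY WITH A CONSTANT:
`|N a - z N c| ≥ |4| · max (|N a|, |z N c|)`.  (If `|N a| ≠ |z N c|` the left side is the
maximum.  If `|N a| = |z N c| ≠ 0`, then `ρ = N(a/c)/z` is fixed by `σ`, `ρ = i ρ₀`, and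
`|ρ₀ - 1| < |4|` would make `ρ₀ = y²` a square in `k` (Hensel / Newton for `X² - ρ₀` at `X = 1`,
`k` complete), so that `z = N(a / (c · i y))` would be a norm.)  Hence `|a|² ≤ 1/|4|`,
`|c|² ≤ 1/|4 z|`. -/
def QuatBddC558 : Prop :=
  ∀ (k k' : Type) [Field k] [Field k'] [Valued k Γ₀] [Valued k' Γ₀] (q e : ℕ)
    (i : k →+* k') (s : k' ≃+* k'), QuadData385 k k' q e i s →
    ∀ z : k, z ≠ 0 → ¬ IsFieldNorm783 2 i s z →
    ∀ δ₀ : GL (Fin 2) k', IsQuatBase385 (i z) δ₀ →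
      ∃ B : ℤ, ∀ t : GL (Fin 2) k', InTwCent s δ₀ t →
        Valued.v (t : Matrix (Fin 2) (Fin 2) k').det = 1 → entryMax t ≤ WithZero.exp B

/-- **S3 (`T ⊂ H`).**  If `w ∈ H` and `N (w δ₀) = (w δ₀) σ(w δ₀)` is conjugate to a regular
`γ ∈ GL₂(k)`, then the twisted centraliser of `w δ₀` is contained in the twisted centraliser of
`δ₀`.

Proof.  `σ(δ₀) = δ₀`, `δ₀ σ(w) = w δ₀`, `δ₀² = z`, so `N (w δ₀) = z w²`, which is regular, hence
NOT a scalar matrix.  If `t⁻¹ (w δ₀) σ(t) = w δ₀` then `t` commutes with `N (w δ₀)` (`σ² = 1`);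
`w` commutes with it as well, and the centraliser of a non-scalar `2 × 2` matrix over a field is
commutative.  So `t w = w t` and `t⁻¹ δ₀ σ(t) = w⁻¹ t⁻¹ (w δ₀) σ(t) = δ₀`. -/
def QuatSubC558 : Prop :=
  ∀ (k k' : Type) [Field k] [Field k'] [Valued k Γ₀] [Valued k' Γ₀] (q e : ℕ)
    (i : k →+* k') (s : k' ≃+* k'), QuadData385 k k' q e i s →
    ∀ z : k, z ≠ 0 →
    ∀ (w δ₀ : GL (Fin 2) k') (γ : GL (Fin 2) k),
      IsQuatBase385 (i z) δ₀ → InTwCent s δ₀ w → IsReg γ →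
      IsConj (twNorm s 2 (w * δ₀)) (Matrix.GeneralLinearGroup.map i γ) →
      ∀ t : GL (Fin 2) k', InTwCent s (w * δ₀) t → InTwCent s δ₀ t

/-- **S4 (`ord Nrd (D^×) = ℤ`).**  There is `ρ ∈ D^×` whose reduced norm `det ρ = i ν` has
`|ν| = exp (-1)` in `k`.

Proof.  `e ∈ {1, 2}` (`e ≥ 3` gives a residue system of `k'` with `q ^ 0 = 1` element, which is
impossible).  `e = 2`: `ρ = diag (ϖ', σ ϖ')`, `ϖ'` a uniformiser of `k'`: `det ρ = N ϖ' = i ν`
(fixed by `σ`) and `|ν|² = |N ϖ'| = exp (-2)`.  `e = 1`: `ord z` is ODD: otherwise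
`z = ϖ^{2j} u`, `u` a unit, and `u` is a norm (`H159.QuadUnitNormC` for the scalar matrix `u`), so
`z` is a norm; with `ord z = 2 j + 1`: `ρ = δ₀ · (i ϖ)^{-j}`, `det ρ = i (- z ϖ^{-2j})`. -/
def QuatUnifC558 : Prop :=
  ∀ (k k' : Type) [Field k] [Field k'] [Valued k Γ₀] [Valued k' Γ₀] (q e : ℕ)
    (i : k →+* k') (s : k' ≃+* k'), QuadData385 k k' q e i s →
    ∀ z : k, z ≠ 0 → ¬ IsFieldNorm783 2 i s z →
    ∀ δ₀ : GL (Fin 2) k', IsQuatBase385 (i z) δ₀ →
      ∃ (ρ : GL (Fin 2) k') (ν : k), InTwCent s δ₀ ρ ∧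
        (ρ : Matrix (Fin 2) (Fin 2) k').det = i ν ∧ Valued.v ν = WithZero.exp (-1 : ℤ)

/-- **S5 (`Nrd` on the twisted centraliser of `δ₁`, `N δ₁ ∼ γ` regular).**  If `k[γ]/k` is
ramified (`HasRamUnif`) the twisted centraliser `T` of `δ₁` contains an element whose determinant
is `i ν` with `|ν| = exp (-1)`; otherwise the determinant of every element of `T` is `i ν` with
`ord ν` EVEN.

Proof.  `c (N δ₁) c⁻¹ = i γ`; `δ' = c δ₁ σ(c)⁻¹` has `N δ' = i γ` exactly (`σ² = 1`) and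
`t ∈ T ⇔ c t c⁻¹` lies in the twisted centraliser of `δ'`, which is the image of the centraliser
of `γ` in `GL₂(k)` (`T6.TwCentC`, proved by helper166).  So `T = c⁻¹ · i(Cent γ) · c` and
`det t = i (det t₀)`.  If `ord det t₀ = 2 j + 1` were odd, `ϖ^{-j} t₀` would commute with `γ` and
have determinant of valuation `exp (-1)`: `HasRamUnif`. -/
def QuatTorusC558 : Prop :=
  ∀ (k k' : Type) [Field k] [Field k'] [Valued k Γ₀] [Valued k' Γ₀] (q e : ℕ)
    (i : k →+* k') (s : k' ≃+* k'), QuadData385 k k' q e i s →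
    ∀ (δ₁ : GL (Fin 2) k') (γ : GL (Fin 2) k), IsReg γ →
      IsConj (twNorm s 2 δ₁) (Matrix.GeneralLinearGroup.map i γ) →
      (HasRamUnif k γ → ∃ (t : GL (Fin 2) k') (ν : k), InTwCent s δ₁ t ∧
          (t : Matrix (Fin 2) (Fin 2) k').det = i ν ∧ Valued.v ν = WithZero.exp (-1 : ℤ)) ∧
      (¬ HasRamUnif k γ → ∀ (t : GL (Fin 2) k') (ν : k), InTwCent s δ₁ t →
          (t : Matrix (Fin 2) (Fin 2) k').det = i ν → ∃ j : ℤ, Valued.v ν = WithZero.exp (2 * j))

/-! ## The leaves (hypothesis-parametrised on PROVED leaves of T6) -/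

/-- T6.18i.6b.2 (≈ 300 lines; Mathlib + T6 defs; Hensel for `X² = ρ₀` near `1`, e.g.
helper826 `exists_root826`, helper962 `exists_rootA962`). -/
def LeafQuatBdd558 : Prop := QuatBddC558

/-- T6.18i.6b.3 (≈ 200 lines; pure algebra of `2 × 2` matrices). -/
def LeafQuatSub558 : Prop := QuatSubC558

/-- T6.18i.6b.4 (≈ 250 lines; `H159.QuadUnitNormC` is PROVED: helper821 `quadUnitNormC821`). -/
def LeafQuatUnif558 : Prop := H159.QuadUnitNormC → QuatUnifC558

/-- T6.18i.6b.5 (≈ 200 lines; `T6.TwCentC` is PROVED: helper166 `twCentC166`). -/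
def LeafQuatTorus558 : Prop := TwCentC → QuatTorusC558

end Fermat.Agent.LT.T6.H558

end
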