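import Fermat.Agent.LT.T6.H558.QuatSetTop
import Fermat.Agent.LT.T6.H276.QuatBdd
import Fermat.Agent.LT.T6.H560.QuatSub
import Fermat.Agent.LT.T6.H372.QuatUnif
import Fermat.Agent.LT.T6.H197.QuatTorus

/-!
# Row LT, tower T6, leaf T6.18i.6b `QuatSettingC385`: ASSEMBLY on the proved T6 leaves

OFF-MAIN.  `quatSetting_of_t6_558 : H159.NewtonC → H305.CptGC305 → H159.QuadUnitNormC → TwCentC →
H385.QuatSettingC385`: the four sub-leaves of the cut are discharged by byte-identical copies of

* `H276/QuatBdd.lean`   (helper276, sha256 `209f370d…`): `quatBddC276`,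
* `H560/QuatSub.lean`   (helper560, sha256 `dfa63bd5…`): `quatSubC560`,
* `H372/QuatUnif.lean`  (helper372, sha256 `67631cb8…`): `leafQuatUnif372`,
* `H197/QuatTorus.lean` (helper197, sha256 `54a81cd7…`): `leafQuatTorus197`.
-/

set_option autoImplicit false

namespace Fermat.Agent.LT.T6.H558

open Fermat.Agent.LT.T6

/-- **T6.18i.6b** on the four T6 leaves `NewtonC`, `CptGC305`, `QuadUnitNormC`, `TwCentC`
(all PROVED: helper129, helper162, helper313 / helper821 / helper220 / helper159, helper166). -/
theorem quatSetting_of_t6_558 (hN : H159.NewtonC) (hCpt : H305.CptGC305)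
    (hQU : H159.QuadUnitNormC) (hTw : TwCentC) : H385.QuatSettingC385 :=
  quatSetting_of558 hN hCpt H276.quatBddC276 H560.quatSubC560 (H372.leafQuatUnif372 hQU)
    (H197.leafQuatTorus197 hTw)

end Fermat.Agent.LT.T6.H558
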