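import Fermat.Agent.LT.T6.H558.QuatSetSpec

/-!
# Row LT, tower T6, leaf T6.18i.6b `QuatSettingC385` (registry 1424, owner helper558): the TOP

OFF-MAIN.  No hole, nothing assumed beyond the hypotheses of the theorem.

`quatSetting_of558 : H159.NewtonC → H305.CptGC305 → QuatBddC558 → QuatSubC558 → QuatUnifC558 →
    QuatTorusC558 → H385.QuatSettingC385`

Proved here: the congruence groups `U(n)` (group, `σ`-stable, integral entries, unit
determinant), the twisted centraliser as a subgroup (`twCentSub558`), the quaternion algebra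
`D = {M : M δ₀ = δ₀ σ(M)}` (`InD558`; entries, trace and determinant lie in `k`), `D` is a
division algebra (`eq_zero_of_det558`), `Nrd` a unit ⇒ `Trd` integral (`trace_integral558`, from
`H159.NewtonC` and Cayley--Hamilton), the finiteness field (`fin_field558`, from
`H305.CptGC305` and the bound `QuatBddC558`), the representatives of `T \ H / H^c`
(`reps_field558`: `H / H^c = ℤ` by `ord Nrd`, image of `T` = `ℤ` or `2ℤ`).
-/

set_option autoImplicit false
set_option linter.unusedSectionVars false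

open scoped Matrix

noncomputable section

namespace Fermat.Agent.LT.T6.H558

open Fermat.Agent.LT.T6 Fermat.Agent.LT.T6.H783 Fermat.Agent.LT.T6.H385

section Basics

variable {k : Type} [Field k] [Valued k Γ₀]

theorem exp_neg_le_one558 (n : ℕ) : (WithZero.exp (-(n : ℤ)) : Γ₀) ≤ 1 := by
  rw [← WithZero.exp_zero]
  exact WithZero.exp_le_exp.mpr (by omega)

theorem val_add_le558 {a b : k} {c : Γ₀} (ha : Valued.v a ≤ c) (hb : Valued.v b ≤ c) :
    Valued.v (a + b) ≤ c :=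
  (Valued.v.map_add a b).trans (max_le ha hb)

theorem val_sub_le558 {a b : k} {c : Γ₀} (ha : Valued.v a ≤ c) (hb : Valued.v b ≤ c) :
    Valued.v (a - b) ≤ c :=
  (Valued.v.map_sub a b).trans (max_le ha hb)

theorem val_mul_le558 {a b : k} {c d : Γ₀} (ha : Valued.v a ≤ c) (hb : Valued.v b ≤ d) :
    Valued.v (a * b) ≤ c * d := by
  rw [Valued.v.map_mul]
  exact mul_le_mul' ha hb

theorem val_one_apply558 (i j : Fin 2) :
    Valued.v ((1 : Matrix (Fin 2) (Fin 2) k) i j) ≤ 1 := by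
  by_cases h : i = j
  · subst h; simp
  · simp [Matrix.one_apply_ne h]

/-- entries of `A * B - 1` in terms of `A - 1`, `B - 1`. -/
theorem mul_sub_one_apply558 (A B : Matrix (Fin 2) (Fin 2) k) (i j : Fin 2) :
    (A * B) i j - (1 : Matrix (Fin 2) (Fin 2) k) i j
      = (∑ l : Fin 2, (A i l - (1 : Matrix (Fin 2) (Fin 2) k) i l)
          * (B l j - (1 : Matrix (Fin 2) (Fin 2) k) l j))
        + (A i j - (1 : Matrix (Fin 2) (Fin 2) k) i j)
        + (B i j - (1 : Matrix (Fin 2) (Fin 2) k) i j) := by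
  have h : A * B - 1 = (A - 1) * (B - 1) + (A - 1) + (B - 1) := by
    noncomm_ring
  have := congrFun (congrFun h i) j
  simpa [Matrix.mul_apply, Matrix.sub_apply, Matrix.add_apply] using this

theorem val_mul_sub_one558 {A B : Matrix (Fin 2) (Fin 2) k} {c : Γ₀} (hc : c ≤ 1)
    (hA : ∀ i j, Valued.v (A i j - (1 : Matrix (Fin 2) (Fin 2) k) i j) ≤ c)
    (hB : ∀ i j, Valued.v (B i j - (1 : Matrix (Fin 2) (Fin 2) k) i j) ≤ c) (i j : Fin 2) :
    Valued.v ((A * B) i j - (1 : Matrix (Fin 2) (Fin 2) k) i j) ≤ c := by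
  rw [mul_sub_one_apply558]
  refine val_add_le558 (val_add_le558 ?_ (hA i j)) (hB i j)
  rw [Fin.sum_univ_two]
  have hcc : c * c ≤ c := by
    calc c * c ≤ c * 1 := mul_le_mul' le_rfl hc
      _ = c := mul_one c
  exact val_add_le558 ((val_mul_le558 (hA i 0) (hB 0 j)).trans hcc)
    ((val_mul_le558 (hA i 1) (hB 1 j)).trans hcc)

theorem inU_one558 (n : ℕ) : InU n (1 : GL (Fin 2) k) := by
  intro i j
  simp

theorem inU_inv558 {n : ℕ} {u : GL (Fin 2) k} (hu : InU n u) : InU n u⁻¹ := by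
  intro i j
  refine ⟨(hu i j).2, ?_⟩
  rw [inv_inv]
  exact (hu i j).1

theorem inU_mul558 {n : ℕ} {u v : GL (Fin 2) k} (hu : InU n u) (hv : InU n v) :
    InU n (u * v) := by
  intro i j
  constructor
  · have := val_mul_sub_one558 (exp_neg_le_one558 n) (fun i j => (hu i j).1)
      (fun i j => (hv i j).1) i j
    simpa using this
  · have := val_mul_sub_one558 (exp_neg_le_one558 n) (fun i j => (hv i j).2)
      (fun i j => (hu i j).2) i j
    simpa [mul_inv_rev] using this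

theorem glAut_apply558 (s : k ≃+* k) (u : GL (Fin 2) k) (i j : Fin 2) :
    ((glAut s u : GL (Fin 2) k) : Matrix (Fin 2) (Fin 2) k) i j
      = s ((u : Matrix (Fin 2) (Fin 2) k) i j) := rfl

theorem inU_glAut558 {n : ℕ} (s : k ≃+* k) (hs : ∀ y : k, Valued.v (s y) = Valued.v y)
    {u : GL (Fin 2) k} (hu : InU n u) : InU n (glAut s u) := by
  have key : ∀ (g : GL (Fin 2) k) (i j : Fin 2),
      ((glAut s g : GL (Fin 2) k) : Matrix (Fin 2) (Fin 2) k) i j
          - (1 : Matrix (Fin 2) (Fin 2) k) i j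
        = s ((g : Matrix (Fin 2) (Fin 2) k) i j - (1 : Matrix (Fin 2) (Fin 2) k) i j) := by
    intro g i j
    rw [glAut_apply558, map_sub]
    congr 1
    by_cases h : i = j
    · subst h; simp
    · simp [Matrix.one_apply_ne h]
  intro i j
  constructor
  · rw [key, hs]; exact (hu i j).1
  · rw [← map_inv, key, hs]; exact (hu i j).2

theorem val_entry_le_one558 {n : ℕ} {u : GL (Fin 2) k} (hu : InU n u) (i j : Fin 2) :
    Valued.v ((u : Matrix (Fin 2) (Fin 2) k) i j) ≤ 1 := by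
  have h1 := (hu i j).1.trans (exp_neg_le_one558 n)
  have := val_add_le558 h1 (val_one_apply558 (k := k) i j)
  simpa using this

theorem val_det_le_one558 {A : Matrix (Fin 2) (Fin 2) k} (hA : ∀ i j, Valued.v (A i j) ≤ 1) :
    Valued.v A.det ≤ 1 := by
  rw [Matrix.det_fin_two]
  have h1 := val_mul_le558 (hA 0 0) (hA 1 1)
  have h2 := val_mul_le558 (hA 0 1) (hA 1 0)
  rw [one_mul] at h1 h2
  exact val_sub_le558 h1 h2

theorem val_trace_le_one558 {A : Matrix (Fin 2) (Fin 2) k} (hA : ∀ i j, Valued.v (A i j) ≤ 1) :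
    Valued.v A.trace ≤ 1 := by
  rw [Matrix.trace_fin_two]
  exact val_add_le558 (hA 0 0) (hA 1 1)

theorem val_det_eq_one558 {n : ℕ} {u : GL (Fin 2) k} (hu : InU n u) :
    Valued.v (u : Matrix (Fin 2) (Fin 2) k).det = 1 := by
  have h1 : Valued.v (u : Matrix (Fin 2) (Fin 2) k).det ≤ 1 :=
    val_det_le_one558 (val_entry_le_one558 hu)
  have h2 : Valued.v ((u⁻¹ : GL (Fin 2) k) : Matrix (Fin 2) (Fin 2) k).det ≤ 1 :=
    val_det_le_one558 (val_entry_le_one558 (inU_inv558 hu))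
  have h3 : (u : Matrix (Fin 2) (Fin 2) k).det
      * ((u⁻¹ : GL (Fin 2) k) : Matrix (Fin 2) (Fin 2) k).det = 1 := by
    rw [← Matrix.det_mul, ← Matrix.GeneralLinearGroup.coe_mul, mul_inv_cancel]
    simp
  have h4 : Valued.v (u : Matrix (Fin 2) (Fin 2) k).det
      * Valued.v ((u⁻¹ : GL (Fin 2) k) : Matrix (Fin 2) (Fin 2) k).det = 1 := by
    rw [← Valued.v.map_mul, h3, Valued.v.map_one]
  refine le_antisymm h1 ?_
  calc (1 : Γ₀) = Valued.v (u : Matrix (Fin 2) (Fin 2) k).det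
        * Valued.v ((u⁻¹ : GL (Fin 2) k) : Matrix (Fin 2) (Fin 2) k).det := h4.symm
    _ ≤ Valued.v (u : Matrix (Fin 2) (Fin 2) k).det * 1 := mul_le_mul' le_rfl h2
    _ = _ := mul_one _

end Basics

section TwCent

variable {R : Type} [CommRing R]

theorem glAut_apply558' (s : R ≃+* R) (u : GL (Fin 2) R) (i j : Fin 2) :
    ((glAut s u : GL (Fin 2) R) : Matrix (Fin 2) (Fin 2) R) i j
      = s ((u : Matrix (Fin 2) (Fin 2) R) i j) := rfl

theorem inTwCent_iff558 (s : R ≃+* R) (δ x : GL (Fin 2) R) :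
    InTwCent s δ x ↔ δ * glAut s x = x * δ := by
  unfold InTwCent
  constructor
  · intro h
    calc δ * glAut s x = x * (x⁻¹ * δ * glAut s x) := by group
      _ = x * δ := by rw [h]
  · intro h
    calc x⁻¹ * δ * glAut s x = x⁻¹ * (δ * glAut s x) := by group
      _ = x⁻¹ * (x * δ) := by rw [h]
      _ = δ := by group

/-- The twisted centraliser as a subgroup. -/
def twCentSub558 (s : R ≃+* R) (δ : GL (Fin 2) R) : Subgroup (GL (Fin 2) R) where
  carrier := {x | InTwCent s δ x}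
  one_mem' := by
    show InTwCent s δ 1
    rw [inTwCent_iff558]; simp
  mul_mem' := by
    intro x y hx hy
    have hx' := (inTwCent_iff558 s δ x).mp hx
    have hy' := (inTwCent_iff558 s δ y).mp hy
    show InTwCent s δ (x * y)
    rw [inTwCent_iff558, map_mul, ← mul_assoc, hx', mul_assoc, hy', mul_assoc]
  inv_mem' := by
    intro x hx
    have hx' := (inTwCent_iff558 s δ x).mp hx
    show InTwCent s δ x⁻¹
    rw [inTwCent_iff558, map_inv]
    calc δ * (glAut s x)⁻¹ = x⁻¹ * (x * δ) * (glAut s x)⁻¹ := by group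
      _ = x⁻¹ * (δ * glAut s x) * (glAut s x)⁻¹ := by rw [hx']
      _ = x⁻¹ * δ := by group

theorem mem_twCentSub558 (s : R ≃+* R) (δ x : GL (Fin 2) R) :
    x ∈ twCentSub558 s δ ↔ InTwCent s δ x := Iff.rfl

theorem inTwCent_conj558 (s : R ≃+* R) {y t : GL (Fin 2) R} (x : GL (Fin 2) R)
    (h : InTwCent s y t) : InTwCent s (x⁻¹ * y * glAut s x) (x⁻¹ * t * x) := by
  have h' := (inTwCent_iff558 s y t).mp h
  rw [inTwCent_iff558]
  simp only [map_mul, map_inv]
  calc x⁻¹ * y * glAut s x * ((glAut s x)⁻¹ * glAut s t * glAut s x)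
      = x⁻¹ * (y * glAut s t) * glAut s x := by group
    _ = x⁻¹ * (t * y) * glAut s x := by rw [h']
    _ = x⁻¹ * t * x * (x⁻¹ * y * glAut s x) := by group

end TwCent

section Quat

variable {k k' : Type} [Field k] [Field k']

/-- `M` lies in the quaternion algebra `D = {M : M δ₀ = δ₀ σ(M)}`, `δ₀ = [[0, Z], [1, 0]]`. -/
def InD558 (s : k' ≃+* k') (Z : k') (M : Matrix (Fin 2) (Fin 2) k') : Prop :=
  M * !![0, Z; 1, 0] = !![0, Z; 1, 0] * M.map s

theorem InD558.e01 {s : k' ≃+* k'} {Z : k'} {M : Matrix (Fin 2) (Fin 2) k'}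
    (h : InD558 s Z M) : M 0 1 = Z * s (M 1 0) := by
  have := congrFun (congrFun h 0) 0
  simpa [Matrix.mul_apply, Fin.sum_univ_two] using this

theorem InD558.e11 {s : k' ≃+* k'} {Z : k'} {M : Matrix (Fin 2) (Fin 2) k'}
    (h : InD558 s Z M) : M 1 1 = s (M 0 0) := by
  have := congrFun (congrFun h 1) 0
  simpa [Matrix.mul_apply, Fin.sum_univ_two] using this

theorem InD558.det_eq {s : k' ≃+* k'} {Z : k'} {M : Matrix (Fin 2) (Fin 2) k'}
    (h : InD558 s Z M) : M.det = M 0 0 * s (M 0 0) - Z * (s (M 1 0) * M 1 0) := by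
  rw [Matrix.det_fin_two, h.e01, h.e11]; ring

theorem InD558.trace_eq {s : k' ≃+* k'} {Z : k'} {M : Matrix (Fin 2) (Fin 2) k'}
    (h : InD558 s Z M) : M.trace = M 0 0 + s (M 0 0) := by
  rw [Matrix.trace_fin_two, h.e11]

theorem InD558.sub {s : k' ≃+* k'} {Z : k'} {M N : Matrix (Fin 2) (Fin 2) k'}
    (hM : InD558 s Z M) (hN : InD558 s Z N) : InD558 s Z (M - N) := by
  unfold InD558 at *
  rw [Matrix.sub_mul, hM, hN, ← Matrix.mul_sub]
  congr 1
  ext a b
  simp [Matrix.map_apply]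

theorem inD_scalar558 {s : k' ≃+* k'} (Z : k') {c : k'} (hc : s c = c) :
    InD558 s Z (c • (1 : Matrix (Fin 2) (Fin 2) k')) := by
  unfold InD558
  ext a b
  fin_cases a <;> fin_cases b <;>
    simp [Matrix.mul_apply, Fin.sum_univ_two, Matrix.map_apply, Matrix.one_apply, hc, mul_comm]

theorem inD_of_inTwCent558 {s : k' ≃+* k'} {Z : k'} {δ₀ t : GL (Fin 2) k'}
    (hδ₀ : IsQuatBase385 Z δ₀) (ht : InTwCent s δ₀ t) :
    InD558 s Z (t : Matrix (Fin 2) (Fin 2) k') := by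
  have h := (inTwCent_iff558 s δ₀ t).mp ht
  have h2 := congrArg (fun g : GL (Fin 2) k' => (g : Matrix (Fin 2) (Fin 2) k')) h
  simp only [Matrix.GeneralLinearGroup.coe_mul] at h2
  unfold InD558
  rw [← hδ₀]
  exact h2.symm

/-- `D` is a division algebra when `Z = i z` and `z` is not a norm. -/
theorem eq_zero_of_det558 {i : k →+* k'} {s : k' ≃+* k'} {z : k}
    (hzn : ¬ IsFieldNorm783 2 i s z) {M : Matrix (Fin 2) (Fin 2) k'}
    (h : InD558 s (i z) M) (hdet : M.det = 0) : M = 0 := by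
  have hd := h.det_eq
  rw [hdet] at hd
  have hc : M 1 0 = 0 := by
    by_contra hc
    apply hzn
    refine ⟨M 0 0 / M 1 0, ?_⟩
    rw [Finset.prod_range_succ, Finset.prod_range_one]
    have hsc : s (M 1 0) ≠ 0 := by simpa using hc
    simp only [pow_zero, pow_one, RingAut.one_apply, map_div₀]
    field_simp
    linear_combination hd
  have ha : M 0 0 = 0 := by
    rw [hc] at hd
    simp only [map_zero, mul_zero, sub_zero] at hd
    rcases mul_eq_zero.mp hd.symm with h0 | h0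
    · exact h0
    · simpa using h0
  ext a b
  fin_cases a <;> fin_cases b
  · simpa using ha
  · simp [h.e01, hc]
  · simpa using hc
  · simp [h.e11, ha]

end Quat

section Gamma0

theorem g0_pow_eq_one558 {x : Γ₀} {e : ℕ} (he : 0 < e) (h : x ^ e = 1) : x = 1 := by
  rcases lt_trichotomy x 1 with h1 | h1 | h1
  · exact absurd h (ne_of_lt (pow_lt_one₀ zero_le h1 he.ne'))
  · exact h1
  · exact absurd h (ne_of_gt (one_lt_pow₀ h1 he.ne'))

theorem g0_one_lt_of_pow558 {x : Γ₀} {e : ℕ} (h : 1 < x ^ e) : 1 < x := by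
  by_contra hx
  rw [not_lt] at hx
  exact absurd h (not_lt.mpr (pow_le_one₀ zero_le hx))

theorem g0_exists_exp558 {x : Γ₀} (hx : x ≠ 0) : ∃ j : ℤ, x = WithZero.exp j :=
  ⟨WithZero.log x, (WithZero.exp_log hx).symm⟩

end Gamma0

section Quat2

variable {k k' : Type} [Field k] [Field k'] [Valued k Γ₀] [Valued k' Γ₀]

theorem cayleyQ558 {R : Type} [CommRing R] (M : Matrix (Fin 2) (Fin 2) R) :
    M * M - M.trace • M + M.det • (1 : Matrix (Fin 2) (Fin 2) R) = 0 := by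
  ext a b
  fin_cases a <;> fin_cases b <;>
    simp [Matrix.mul_apply, Fin.sum_univ_two, Matrix.trace_fin_two, Matrix.det_fin_two] <;> ring

theorem s_s558 {i : k →+* k'} {s : k' ≃+* k'} (hc : IsCyclicData k k' 2 i s) (y : k') :
    s (s y) = y := by
  have := hc.order y
  simpa [pow_two] using this

theorem val_two_le558 : Valued.v (2 : k') ≤ 1 := by
  have : (2 : k') = 1 + 1 := by norm_num
  rw [this]
  exact val_add_le558 (by simp) (by simp)

theorem InD558.exists_trace {i : k →+* k'} {s : k' ≃+* k'} (hc : IsCyclicData k k' 2 i s)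
    {Z : k'} {M : Matrix (Fin 2) (Fin 2) k'} (h : InD558 s Z M) : ∃ τ : k, i τ = M.trace := by
  apply hc.fixed
  rw [h.trace_eq, map_add, s_s558 hc]; ring

theorem InD558.exists_det {i : k →+* k'} {s : k' ≃+* k'} (hc : IsCyclicData k k' 2 i s)
    {z : k} {M : Matrix (Fin 2) (Fin 2) k'} (h : InD558 s (i z) M) : ∃ ν : k, i ν = M.det := by
  apply hc.fixed
  rw [h.det_eq, map_sub, map_mul, map_mul, map_mul, s_s558 hc, s_s558 hc, hc.fix_i]; ring

/-- `Nrd` a unit ⇒ `Trd` integral. -/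
theorem trace_integral558 (hN : H159.NewtonC) {q e : ℕ} {i : k →+* k'} {s : k' ≃+* k'}
    (hQ : QuadData385 k k' q e i s) {z : k} (hzn : ¬ IsFieldNorm783 2 i s z)
    {M : Matrix (Fin 2) (Fin 2) k'} (hM : InD558 s (i z) M) (hdet : Valued.v M.det = 1) :
    Valued.v M.trace ≤ 1 := by
  by_contra htr
  rw [not_le] at htr
  have hc := hQ.ext.cyc
  obtain ⟨τ, hτ⟩ := hM.exists_trace hc
  obtain ⟨ν, hν⟩ := hM.exists_det hc
  have hvν : Valued.v ν = 1 := by
    have := hQ.ext.val_i ν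
    rw [hν, hdet] at this
    exact g0_pow_eq_one558 hQ.ext.e_pos this.symm
  have hvτ : 1 < Valued.v τ := by
    have := hQ.ext.val_i τ
    rw [hτ] at this
    rw [this] at htr
    exact g0_one_lt_of_pow558 htr
  obtain ⟨x, hx⟩ := hN k q hQ.hk τ ν hvν hvτ
  -- the two factors
  have h1 : InD558 s (i z) (M - (i x) • (1 : Matrix (Fin 2) (Fin 2) k')) :=
    hM.sub (inD_scalar558 _ (hc.fix_i x))
  have h2 : InD558 s (i z) (M - (i (τ - x)) • (1 : Matrix (Fin 2) (Fin 2) k')) :=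
    hM.sub (inD_scalar558 _ (hc.fix_i (τ - x)))
  have hprod : (M - (i x) • (1 : Matrix (Fin 2) (Fin 2) k'))
      * (M - (i (τ - x)) • (1 : Matrix (Fin 2) (Fin 2) k')) = 0 := by
    have hC := cayleyQ558 M
    have hxi : i x * i (τ - x) = M.det := by
      rw [← hν, ← map_mul]; congr 1; linear_combination -hx
    have hsum : i x + i (τ - x) = M.trace := by
      rw [← hτ, ← map_add]; congr 1; ring
    rw [← hC, ← hxi, ← hsum]
    simp only [Matrix.sub_mul, Matrix.mul_sub, Matrix.smul_mul, Matrix.mul_smul, Matrix.one_mul,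
      Matrix.mul_one, add_smul]
    rw [smul_sub, smul_smul, mul_comm (i (τ - x)) (i x)]
    abel
  have hdet0 : (M - (i x) • (1 : Matrix (Fin 2) (Fin 2) k')).det
      * (M - (i (τ - x)) • (1 : Matrix (Fin 2) (Fin 2) k')).det = 0 := by
    rw [← Matrix.det_mul, hprod, Matrix.det_zero]
  have hscal : ∃ c : k', M = c • (1 : Matrix (Fin 2) (Fin 2) k') := by
    rcases mul_eq_zero.mp hdet0 with h0 | h0
    · exact ⟨i x, sub_eq_zero.mp (eq_zero_of_det558 hzn h1 h0)⟩
    · exact ⟨i (τ - x), sub_eq_zero.mp (eq_zero_of_det558 hzn h2 h0)⟩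
  obtain ⟨c, hMc⟩ := hscal
  have hd : M.det = c ^ 2 := by
    rw [hMc, Matrix.det_fin_two]; simp; ring
  have ht : M.trace = 2 * c := by
    rw [hMc, Matrix.trace_fin_two]; simp; ring
  have hvc : Valued.v c = 1 := by
    rw [hd, map_pow] at hdet
    exact g0_pow_eq_one558 (by norm_num) hdet
  rw [ht, map_mul, hvc, mul_one] at htr
  exact absurd htr (not_lt.mpr val_two_le558)

end Quat2

section Conj

variable {R : Type} [CommRing R]

theorem trace_conj558 (x t : GL (Fin 2) R) :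
    ((x⁻¹ * t * x : GL (Fin 2) R) : Matrix (Fin 2) (Fin 2) R).trace
      = (t : Matrix (Fin 2) (Fin 2) R).trace := by
  simp only [Matrix.GeneralLinearGroup.coe_mul]
  rw [Matrix.trace_mul_comm, ← Matrix.mul_assoc, ← Matrix.GeneralLinearGroup.coe_mul,
    mul_inv_cancel]
  simp

theorem det_conj558 (x t : GL (Fin 2) R) :
    ((x⁻¹ * t * x : GL (Fin 2) R) : Matrix (Fin 2) (Fin 2) R).det
      = (t : Matrix (Fin 2) (Fin 2) R).det := by
  have h3 : ((x⁻¹ : GL (Fin 2) R) : Matrix (Fin 2) (Fin 2) R).det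
      * (x : Matrix (Fin 2) (Fin 2) R).det = 1 := by
    rw [← Matrix.det_mul, ← Matrix.GeneralLinearGroup.coe_mul, inv_mul_cancel]
    simp
  simp only [Matrix.GeneralLinearGroup.coe_mul, Matrix.det_mul]
  calc ((x⁻¹ : GL (Fin 2) R) : Matrix (Fin 2) (Fin 2) R).det
        * (t : Matrix (Fin 2) (Fin 2) R).det * (x : Matrix (Fin 2) (Fin 2) R).det
      = (t : Matrix (Fin 2) (Fin 2) R).det
        * (((x⁻¹ : GL (Fin 2) R) : Matrix (Fin 2) (Fin 2) R).det
          * (x : Matrix (Fin 2) (Fin 2) R).det) := by ring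
    _ = _ := by rw [h3, mul_one]

end Conj

section Fields

variable {k k' : Type} [Field k] [Field k'] [Valued k Γ₀] [Valued k' Γ₀]

theorem inTwCentC_conj558 (s : k' ≃+* k') {y t : GL (Fin 2) k'} (x : GL (Fin 2) k')
    (h : InTwCentC s y t) : InTwCentC s (x⁻¹ * y * glAut s x) (x⁻¹ * t * x) := by
  refine ⟨inTwCent_conj558 s x h.1, ?_, ?_⟩
  · rw [trace_conj558]; exact h.2.1
  · rw [det_conj558]; exact h.2.2

/-- membership in `H^c` from `Nrd` a unit -/
theorem inTwCentC_of558 (hN : H159.NewtonC) {q e : ℕ} {i : k →+* k'} {s : k' ≃+* k'}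
    (hQ : QuadData385 k k' q e i s) {z : k} (hzn : ¬ IsFieldNorm783 2 i s z)
    {δ₀ t : GL (Fin 2) k'} (hδ₀ : IsQuatBase385 (i z) δ₀) (ht : InTwCent s δ₀ t)
    (hdet : Valued.v (t : Matrix (Fin 2) (Fin 2) k').det = 1) : InTwCentC s δ₀ t :=
  ⟨ht, trace_integral558 hN hQ hzn (inD_of_inTwCent558 hδ₀ ht) hdet, hdet⟩

theorem le_entryMax558 (g : GL (Fin 2) k') (a b : Fin 2) :
    Valued.v ((g : Matrix (Fin 2) (Fin 2) k') a b) ≤ entryMax g :=
  Finset.le_sup' (fun p : Fin 2 × Fin 2 => Valued.v ((g : Matrix (Fin 2) (Fin 2) k') p.1 p.2))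
    (Finset.mem_univ (a, b))

theorem entryMax_le558 (g : GL (Fin 2) k') {c : Γ₀}
    (h : ∀ a b, Valued.v ((g : Matrix (Fin 2) (Fin 2) k') a b) ≤ c) : entryMax g ≤ c :=
  Finset.sup'_le _ _ (fun p _ => h p.1 p.2)

theorem val_mul_apply_le558 {A B : Matrix (Fin 2) (Fin 2) k'} {a b : Γ₀}
    (hA : ∀ i j, Valued.v (A i j) ≤ a) (hB : ∀ i j, Valued.v (B i j) ≤ b) (i j : Fin 2) :
    Valued.v ((A * B) i j) ≤ a * b := by
  rw [Matrix.mul_apply, Fin.sum_univ_two]
  exact val_add_le558 (val_mul_le558 (hA i 0) (hB 0 j)) (val_mul_le558 (hA i 1) (hB 1 j))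

theorem g0_le_exp558 (x : Γ₀) : ∃ j : ℤ, x ≤ WithZero.exp j := by
  by_cases hx : x = 0
  · exact ⟨0, by rw [hx]; exact zero_le⟩
  · obtain ⟨j, hj⟩ := g0_exists_exp558 hx
    exact ⟨j, hj.le⟩

/-- the finiteness field -/
theorem fin_field558 (hCpt : H305.CptGC305) {q' : ℕ} (hk' : IsLocalField k' q')
    {s : k' ≃+* k'} {δ₀ : GL (Fin 2) k'} (n : ℕ) (B : ℤ)
    (hB : ∀ t : GL (Fin 2) k', InTwCent s δ₀ t →
      Valued.v (t : Matrix (Fin 2) (Fin 2) k').det = 1 → entryMax t ≤ WithZero.exp B)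
    (x : GL (Fin 2) k') :
    {c : Set (GL (Fin 2) k') | ∃ t : GL (Fin 2) k', InTwCentC s δ₀ t ∧
      c = {g : GL (Fin 2) k' | ∃ u : GL (Fin 2) k', InU n u ∧ g = x⁻¹ * t * x * u}}.Finite := by
  obtain ⟨B₁, hB₁⟩ := g0_le_exp558 (entryMax x⁻¹ * WithZero.exp B * entryMax x)
  set B₂ : ℤ := max B₁ 0 with hB₂
  obtain ⟨F, hF⟩ := hCpt k' q' hk' B₂ n
  refine Set.Finite.subset
    ((Finset.finite_toSet F).image
      (fun f : GL (Fin 2) k' => {g : GL (Fin 2) k' | ∃ u : GL (Fin 2) k', InU n u ∧ g = f * u}))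
    ?_
  rintro c ⟨t, ht, rfl⟩
  have hbound : entryMax (x⁻¹ * t * x) ≤ WithZero.exp B₂ := by
    refine entryMax_le558 _ (fun a b => ?_)
    have h1 : ∀ a b, Valued.v (((x⁻¹ * t : GL (Fin 2) k') : Matrix (Fin 2) (Fin 2) k') a b)
        ≤ entryMax x⁻¹ * WithZero.exp B := by
      intro a b
      rw [Matrix.GeneralLinearGroup.coe_mul]
      exact val_mul_apply_le558 (le_entryMax558 x⁻¹)
        (fun a b => (le_entryMax558 t a b).trans (hB t ht.1 ht.2.2)) a b
    rw [Matrix.GeneralLinearGroup.coe_mul]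
    refine (val_mul_apply_le558 h1 (le_entryMax558 x) a b).trans (hB₁.trans ?_)
    exact WithZero.exp_le_exp.mpr (le_max_left _ _)
  have hdet : WithZero.exp (-B₂) ≤
      Valued.v ((x⁻¹ * t * x : GL (Fin 2) k') : Matrix (Fin 2) (Fin 2) k').det := by
    rw [det_conj558, ht.2.2, ← WithZero.exp_zero]
    exact WithZero.exp_le_exp.mpr (by simp [hB₂])
  obtain ⟨f, hfF, u₀, hu₀, hfu⟩ := hF (x⁻¹ * t * x) hbound hdet
  refine ⟨f, hfF, ?_⟩
  ext g
  constructor
  · rintro ⟨u, hu, rfl⟩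
    refine ⟨u₀⁻¹ * u, inU_mul558 (inU_inv558 hu₀) hu, ?_⟩
    rw [hfu]; group
  · rintro ⟨u, hu, rfl⟩
    refine ⟨u₀ * u, inU_mul558 hu₀ hu, ?_⟩
    rw [hfu]; group

end Fields

section Nrd

variable {k k' : Type} [Field k] [Field k'] [Valued k Γ₀] [Valued k' Γ₀]

/-- `det t = i ν` with `|ν| = g`. -/
def NrdVal558 (i : k →+* k') (t : GL (Fin 2) k') (g : Γ₀) : Prop :=
  ∃ ν : k, (t : Matrix (Fin 2) (Fin 2) k').det = i ν ∧ Valued.v ν = g

theorem nrdVal_one558 (i : k →+* k') : NrdVal558 i 1 1 :=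
  ⟨1, by simp, by simp⟩

theorem NrdVal558.mul {i : k →+* k'} {t t' : GL (Fin 2) k'} {g g' : Γ₀}
    (h : NrdVal558 i t g) (h' : NrdVal558 i t' g') : NrdVal558 i (t * t') (g * g') := by
  obtain ⟨ν, h1, h2⟩ := h
  obtain ⟨ν', h1', h2'⟩ := h'
  exact ⟨ν * ν', by rw [Matrix.GeneralLinearGroup.coe_mul, Matrix.det_mul, h1, h1', map_mul],
    by rw [map_mul, h2, h2']⟩

theorem det_inv558 {R : Type} [Field R] (t : GL (Fin 2) R) :
    ((t⁻¹ : GL (Fin 2) R) : Matrix (Fin 2) (Fin 2) R).det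
      = ((t : Matrix (Fin 2) (Fin 2) R).det)⁻¹ := by
  have h3 : (t : Matrix (Fin 2) (Fin 2) R).det
      * ((t⁻¹ : GL (Fin 2) R) : Matrix (Fin 2) (Fin 2) R).det = 1 := by
    rw [← Matrix.det_mul, ← Matrix.GeneralLinearGroup.coe_mul, mul_inv_cancel]
    simp
  exact eq_inv_of_mul_eq_one_right h3

theorem det_ne_zero558 {R : Type} [Field R] (t : GL (Fin 2) R) :
    (t : Matrix (Fin 2) (Fin 2) R).det ≠ 0 := by
  intro h
  have h3 : (t : Matrix (Fin 2) (Fin 2) R).det
      * ((t⁻¹ : GL (Fin 2) R) : Matrix (Fin 2) (Fin 2) R).det = 1 := by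
    rw [← Matrix.det_mul, ← Matrix.GeneralLinearGroup.coe_mul, mul_inv_cancel]
    simp
  rw [h, zero_mul] at h3
  exact zero_ne_one h3

theorem NrdVal558.inv {i : k →+* k'} {t : GL (Fin 2) k'} {g : Γ₀}
    (h : NrdVal558 i t g) : NrdVal558 i t⁻¹ g⁻¹ := by
  obtain ⟨ν, h1, h2⟩ := h
  exact ⟨ν⁻¹, by rw [det_inv558, h1, map_inv₀], by rw [map_inv₀, h2]⟩

theorem NrdVal558.unique {i : k →+* k'} {t : GL (Fin 2) k'} {g g' : Γ₀}
    (h : NrdVal558 i t g) (h' : NrdVal558 i t g') : g = g' := by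
  obtain ⟨ν, h1, h2⟩ := h
  obtain ⟨ν', h1', h2'⟩ := h'
  have : ν = ν' := i.injective (h1.symm.trans h1')
  rw [← h2, ← h2', this]

theorem NrdVal558.pow {i : k →+* k'} {t : GL (Fin 2) k'} {g : Γ₀}
    (h : NrdVal558 i t g) (n : ℕ) : NrdVal558 i (t ^ n) (g ^ n) := by
  induction n with
  | zero => simpa using nrdVal_one558 i
  | succ n ih => rw [pow_succ, pow_succ]; exact ih.mul h

theorem NrdVal558.zpow {i : k →+* k'} {t : GL (Fin 2) k'} {g : Γ₀}
    (h : NrdVal558 i t g) (m : ℤ) : NrdVal558 i (t ^ m) (g ^ m) := by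
  cases m with
  | ofNat n => simpa using h.pow n
  | negSucc n => simpa [zpow_negSucc] using (h.pow (n + 1)).inv

/-- elements of `H` have a reduced norm in `k` -/
theorem nrdVal_exists558 {i : k →+* k'} {s : k' ≃+* k'} (hc : IsCyclicData k k' 2 i s)
    {z : k} {δ₀ t : GL (Fin 2) k'} (hδ₀ : IsQuatBase385 (i z) δ₀) (ht : InTwCent s δ₀ t) :
    ∃ j : ℤ, NrdVal558 i t (WithZero.exp j) := by
  obtain ⟨ν, hν⟩ := (inD_of_inTwCent558 hδ₀ ht).exists_det hc
  have hν0 : ν ≠ 0 := by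
    rintro rfl
    rw [map_zero] at hν
    exact det_ne_zero558 t hν.symm
  obtain ⟨j, hj⟩ := g0_exists_exp558 ((Valuation.ne_zero_iff _).mpr hν0)
  exact ⟨j, ν, hν.symm, hj⟩

theorem val_det_of_nrdVal558 {e : ℕ} {i : k →+* k'}
    (hvi : ∀ x : k, Valued.v (i x) = Valued.v x ^ e) {t : GL (Fin 2) k'}
    (h : NrdVal558 i t 1) : Valued.v (t : Matrix (Fin 2) (Fin 2) k').det = 1 := by
  obtain ⟨ν, h1, h2⟩ := h
  rw [h1, hvi, h2, one_pow]

theorem nrdVal_of_inTwCentC558 {e : ℕ} (he : 0 < e) {i : k →+* k'} {s : k' ≃+* k'}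
    (hc : IsCyclicData k k' 2 i s) (hvi : ∀ x : k, Valued.v (i x) = Valued.v x ^ e)
    {z : k} {δ₀ t : GL (Fin 2) k'} (hδ₀ : IsQuatBase385 (i z) δ₀) (ht : InTwCentC s δ₀ t) :
    NrdVal558 i t 1 := by
  obtain ⟨ν, hν⟩ := (inD_of_inTwCent558 hδ₀ ht.1).exists_det hc
  refine ⟨ν, hν.symm, ?_⟩
  have := ht.2.2
  rw [← hν, hvi] at this
  exact g0_pow_eq_one558 he this

/-- the scalar matrix `c` as an element of `GL₂` -/
def scal558 {R : Type} [Field R] (c : R) (hc : c ≠ 0) : GL (Fin 2) R :=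
  Matrix.GeneralLinearGroup.mkOfDetNeZero !![c, 0; 0, c]
    (by rw [Matrix.det_fin_two_of]; simpa using hc)

theorem coe_scal558 {R : Type} [Field R] (c : R) (hc : c ≠ 0) :
    ((scal558 c hc : GL (Fin 2) R) : Matrix (Fin 2) (Fin 2) R) = !![c, 0; 0, c] := rfl

theorem inTwCent_scal558 {R : Type} [Field R] (s : R ≃+* R) (δ : GL (Fin 2) R) (c : R)
    (hc : c ≠ 0) (hs : s c = c) : InTwCent s δ (scal558 c hc) := by
  rw [inTwCent_iff558]
  apply Matrix.GeneralLinearGroup.ext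
  intro a b
  rw [Matrix.GeneralLinearGroup.coe_mul, Matrix.GeneralLinearGroup.coe_mul]
  have h1 : ((glAut s (scal558 c hc) : GL (Fin 2) R) : Matrix (Fin 2) (Fin 2) R)
      = !![c, 0; 0, c] := by
    ext a b
    rw [glAut_apply558', coe_scal558]
    fin_cases a <;> fin_cases b <;> simp [hs]
  rw [h1, coe_scal558]
  fin_cases a <;> fin_cases b <;> simp [Matrix.mul_apply, Fin.sum_univ_two, mul_comm]

theorem nrdVal_scal558 (i : k →+* k') (y : k) (hy : y ≠ 0) :
    NrdVal558 i (scal558 (i y) ((map_ne_zero i).mpr hy)) (Valued.v y ^ 2) :=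
  ⟨y ^ 2, by rw [coe_scal558, Matrix.det_fin_two_of]; simp; ring, by rw [map_pow]⟩

end Nrd

section Top

variable {k k' : Type} [Field k] [Field k'] [Valued k Γ₀] [Valued k' Γ₀]

/-- `h = t r o` with `o ∈ H^c`, from the reduced norms. -/
theorem exists_o558 (hN : H159.NewtonC) {q e : ℕ} {i : k →+* k'} {s : k' ≃+* k'}
    (hQ : QuadData385 k k' q e i s) {z : k} (hzn : ¬ IsFieldNorm783 2 i s z)
    {δ₀ : GL (Fin 2) k'} (hδ₀ : IsQuatBase385 (i z) δ₀) {h t r : GL (Fin 2) k'}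
    (hh : InTwCent s δ₀ h) (ht : InTwCent s δ₀ t) (hr : InTwCent s δ₀ r) {a b c : ℤ}
    (nh : NrdVal558 i h (WithZero.exp a)) (nt : NrdVal558 i t (WithZero.exp b))
    (nr : NrdVal558 i r (WithZero.exp c)) (habc : a = b + c) :
    ∃ o : GL (Fin 2) k', InTwCentC s δ₀ o ∧ h = t * r * o := by
  refine ⟨r⁻¹ * t⁻¹ * h, ?_, by group⟩
  have ho : InTwCent s δ₀ (r⁻¹ * t⁻¹ * h) :=
    (twCentSub558 s δ₀).mul_mem
      ((twCentSub558 s δ₀).mul_mem ((twCentSub558 s δ₀).inv_mem hr)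
        ((twCentSub558 s δ₀).inv_mem ht)) hh
  have no : NrdVal558 i (r⁻¹ * t⁻¹ * h) 1 := by
    have := (nr.inv.mul nt.inv).mul nh
    have e1 : (WithZero.exp c : Γ₀)⁻¹ * (WithZero.exp b)⁻¹ * WithZero.exp a = 1 := by
      rw [← WithZero.exp_neg, ← WithZero.exp_neg, ← WithZero.exp_add, ← WithZero.exp_add,
        ← WithZero.exp_zero]
      congr 1
      omega
    rwa [e1] at this
  exact inTwCentC_of558 hN hQ hzn hδ₀ ho (val_det_of_nrdVal558 hQ.ext.val_i no)

theorem exp_neg_one_zpow558 (m : ℤ) :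
    ((WithZero.exp (-1 : ℤ) : Γ₀)) ^ m = WithZero.exp (-m) := by
  rw [← WithZero.exp_zsmul]
  congr 1
  simp

/-- the field `reps` -/
theorem reps_field558 (hN : H159.NewtonC) (hS : QuatSubC558) (hU : QuatUnifC558)
    (hT : QuatTorusC558) {q e : ℕ} {i : k →+* k'} {s : k' ≃+* k'}
    (hQ : QuadData385 k k' q e i s) {z : k} (hz : z ≠ 0) (hzn : ¬ IsFieldNorm783 2 i s z)
    {w δ₀ : GL (Fin 2) k'} {γ : GL (Fin 2) k} (hδ₀ : IsQuatBase385 (i z) δ₀)
    (hw : InTwCent s δ₀ w) (hreg : IsReg γ)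
    (hconj : IsConj (twNorm s 2 (w * δ₀)) (Matrix.GeneralLinearGroup.map i γ)) :
    ∃ Rm : Finset (GL (Fin 2) k'), Rm.card = quatMultNat385 k γ ∧
      (∀ r ∈ Rm, r⁻¹ * δ₀ * glAut s r = δ₀) ∧
      (∀ h : GL (Fin 2) k', h⁻¹ * δ₀ * glAut s h = δ₀ →
        ∃ r ∈ Rm, ∃ t o : GL (Fin 2) k', t⁻¹ * (w * δ₀) * glAut s t = w * δ₀ ∧
          InTwCentC s δ₀ o ∧ h = t * r * o) ∧
      ∀ r ∈ Rm, ∀ r' ∈ Rm,
        (∃ t o : GL (Fin 2) k', t⁻¹ * (w * δ₀) * glAut s t = w * δ₀ ∧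
          InTwCentC s δ₀ o ∧ r' = t * r * o) → r = r' := by
  classical
  have hc := hQ.ext.cyc
  have hvi := hQ.ext.val_i
  have he := hQ.ext.e_pos
  have hsub : ∀ t : GL (Fin 2) k', InTwCent s (w * δ₀) t → InTwCent s δ₀ t :=
    hS k k' q e i s hQ z hz w δ₀ γ hδ₀ hw hreg hconj
  obtain ⟨hT1, hT2⟩ := hT k k' q e i s hQ (w * δ₀) γ hreg hconj
  have h1H : InTwCent s δ₀ 1 := (twCentSub558 s δ₀).one_mem
  by_cases hR : HasRamUnif k γ
  · -- ramified: one double coset
    obtain ⟨t₁, ν₁, ht₁, hd₁, hv₁⟩ := hT1 hR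
    have n₁ : NrdVal558 i t₁ (WithZero.exp (-1 : ℤ)) := ⟨ν₁, hd₁, hv₁⟩
    refine ⟨{1}, ?_, ?_, ?_, ?_⟩
    · unfold quatMultNat385; rw [if_pos hR]; simp
    · intro r hr
      rw [Finset.mem_singleton] at hr
      subst hr
      exact h1H
    · intro h hh
      obtain ⟨j, nh⟩ := nrdVal_exists558 hc hδ₀ hh
      have htT : InTwCent s (w * δ₀) (t₁ ^ (-j)) :=
        (twCentSub558 s (w * δ₀)).zpow_mem ht₁ (-j)
      have nt : NrdVal558 i (t₁ ^ (-j)) (WithZero.exp j) := by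
        have := n₁.zpow (-j)
        rwa [exp_neg_one_zpow558, neg_neg] at this
      have n1 : NrdVal558 i (1 : GL (Fin 2) k') (WithZero.exp 0) := by
        simpa using nrdVal_one558 i
      obtain ⟨o, ho, hho⟩ := exists_o558 hN hQ hzn hδ₀ hh (hsub _ htT) h1H nh nt n1 (by omega)
      exact ⟨1, Finset.mem_singleton_self 1, t₁ ^ (-j), o, htT, ho, hho⟩
    · intro r hr r' hr' _
      rw [Finset.mem_singleton] at hr hr'
      rw [hr, hr']
  · -- unramified: two double cosets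
    obtain ⟨ρ, νρ, hρ, hdρ, hvρ⟩ := hU k k' q e i s hQ z hz hzn δ₀ hδ₀
    have nρ : NrdVal558 i ρ (WithZero.exp (-1 : ℤ)) := ⟨νρ, hdρ, hvρ⟩
    have n1 : NrdVal558 i (1 : GL (Fin 2) k') (WithZero.exp 0) := by
      simpa using nrdVal_one558 i
    have hne : (1 : GL (Fin 2) k') ≠ ρ := by
      intro h
      rw [← h] at nρ
      have := n1.unique nρ
      rw [WithZero.exp_inj] at this
      omega
    obtain ⟨ϖ, hϖ⟩ := hQ.hk.unif
    have hϖ0 : ϖ ≠ 0 := by
      rintro rfl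
      rw [map_zero] at hϖ
      exact WithZero.exp_ne_zero hϖ.symm
    -- scalars
    have hscal : ∀ a : ℤ, ∃ t : GL (Fin 2) k', InTwCent s (w * δ₀) t ∧
        NrdVal558 i t (WithZero.exp (-(2 * a))) := by
      intro a
      have hy : ϖ ^ a ≠ 0 := zpow_ne_zero a hϖ0
      refine ⟨scal558 (i (ϖ ^ a)) ((map_ne_zero i).mpr hy),
        inTwCent_scal558 s _ _ _ (hc.fix_i _), ?_⟩
      have := nrdVal_scal558 i (ϖ ^ a) hy
      have e1 : Valued.v (ϖ ^ a) ^ 2 = (WithZero.exp (-(2 * a)) : Γ₀) := by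
        rw [map_zpow₀, hϖ, exp_neg_one_zpow558, ← WithZero.exp_nsmul]
        congr 1
        simp
      rwa [e1] at this
    refine ⟨{1, ρ}, ?_, ?_, ?_, ?_⟩
    · unfold quatMultNat385; rw [if_neg hR]
      exact Finset.card_pair hne
    · intro r hr
      rw [Finset.mem_insert, Finset.mem_singleton] at hr
      rcases hr with rfl | rfl
      · exact h1H
      · exact hρ
    · intro h hh
      obtain ⟨j, nh⟩ := nrdVal_exists558 hc hδ₀ hh
      rcases Int.even_or_odd' j with ⟨m, hm | hm⟩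
      · obtain ⟨t, htT, nt⟩ := hscal (-m)
        obtain ⟨o, ho, hho⟩ := exists_o558 hN hQ hzn hδ₀ hh (hsub _ htT) h1H nh nt n1
          (by omega)
        exact ⟨1, by simp, t, o, htT, ho, hho⟩
      · obtain ⟨t, htT, nt⟩ := hscal (-(m + 1))
        obtain ⟨o, ho, hho⟩ := exists_o558 hN hQ hzn hδ₀ hh (hsub _ htT) hρ nh nt nρ
          (by omega)
        exact ⟨ρ, by simp, t, o, htT, ho, hho⟩
    · intro r hr r' hr' hex
      obtain ⟨t, o, htT, ho, hro⟩ := hex
      have no := nrdVal_of_inTwCentC558 he hc hvi hδ₀ ho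
      obtain ⟨νt, hνt⟩ := (inD_of_inTwCent558 hδ₀ (hsub t htT)).exists_det hc
      obtain ⟨j', hj'⟩ := hT2 hR t νt htT hνt.symm
      have nt : NrdVal558 i t (WithZero.exp (2 * j')) := ⟨νt, hνt.symm, hj'⟩
      rw [Finset.mem_insert, Finset.mem_singleton] at hr hr'
      rcases hr with rfl | rfl <;> rcases hr' with rfl | rfl
      · rfl
      · exfalso
        have h3 := (nt.mul n1).mul no
        rw [← hro] at h3
        have := nρ.unique h3
        rw [mul_one, ← WithZero.exp_add, WithZero.exp_inj] at this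
        omega
      · exfalso
        have h3 := (nt.mul nρ).mul no
        rw [← hro] at h3
        have := n1.unique h3
        rw [mul_one, ← WithZero.exp_add, WithZero.exp_inj] at this
        omega
      · rfl

/-- **T6.18i.6b: the group theory of `D^×`** (top of the cut). -/
theorem quatSetting_of558 (hN : H159.NewtonC) (hCpt : H305.CptGC305) (hB : QuatBddC558)
    (hS : QuatSubC558) (hU : QuatUnifC558) (hT : QuatTorusC558) : QuatSettingC385 := by
  intro k k' _ _ _ _ q e i s hQ z hz hzn n w δ₀ γ hδ₀ hw hreg _ hconj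
  have hc := hQ.ext.cyc
  have hsub : ∀ t : GL (Fin 2) k', InTwCent s (w * δ₀) t → InTwCent s δ₀ t :=
    hS k k' q e i s hQ z hz w δ₀ γ hδ₀ hw hreg hconj
  obtain ⟨B, hBd⟩ := hB k k' q e i s hQ z hz hzn δ₀ hδ₀
  have hC0 : ∀ t : GL (Fin 2) k', InTwCent s δ₀ t →
      Valued.v (t : Matrix (Fin 2) (Fin 2) k').det = 1 → InTwCentC s δ₀ t :=
    fun t ht hd => inTwCentC_of558 hN hQ hzn hδ₀ ht hd
  exact
    { U_one := inU_one558 n
      U_mul := fun u v hu hv => inU_mul558 hu hv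
      U_inv := fun u hu => inU_inv558 hu
      U_s := fun u hu => inU_glAut558 s hQ.ext.val_s hu
      C_cent := fun y t h => h.1
      C_conj := fun y t x h => inTwCentC_conj558 s x h
      C₀_one := hC0 1 (twCentSub558 s δ₀).one_mem (by simp)
      C₀_mul := fun t t' ht ht' =>
        hC0 (t * t') ((twCentSub558 s δ₀).mul_mem ht.1 ht'.1)
          (by rw [Matrix.GeneralLinearGroup.coe_mul, Matrix.det_mul, map_mul, ht.2.2, ht'.2.2,
            one_mul])
      C₀_inv := fun t ht =>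
        hC0 t⁻¹ ((twCentSub558 s δ₀).inv_mem ht.1)
          (by rw [det_inv558, map_inv₀, ht.2.2, inv_one])
      sub := hsub
      C₁_iff := fun t =>
        ⟨fun h => ⟨h.1, hsub t h.1, h.2⟩, fun h => ⟨h.1, h.2.2⟩⟩
      normal := fun h o hh ho =>
        hC0 (h⁻¹ * o * h)
          ((twCentSub558 s δ₀).mul_mem
            ((twCentSub558 s δ₀).mul_mem ((twCentSub558 s δ₀).inv_mem hh) ho.1) hh)
          (by rw [det_conj558]; exact ho.2.2)
      cpt := fun h x hh hU' =>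
        ⟨hh, by
          rw [← trace_conj558 x h]
          exact val_trace_le_one558 (val_entry_le_one558 hU'), by
          rw [← det_conj558 x h]
          exact val_det_eq_one558 hU'⟩
      fin := fun x => fin_field558 hCpt hQ.hk' n B hBd x
      reps := reps_field558 hN hS hU hT hQ hz hzn hδ₀ hw hreg hconj }

end Top

end Fermat.Agent.LT.T6.H558

end
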